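import Fermat.Agent.S24_helper44.PermModule

/-!
The number of cycles `cyc σ` in terms of Mathlib's `cycleType`; sign and parity; involutions and
elements of order three.
-/

set_option autoImplicit false

namespace Fermat.Agent.S24_helper44

open MulAction Equiv Equiv.Perm

variable {X : Type*} [Fintype X] [DecidableEq X]

omit [Fintype X] [DecidableEq X] in
lemma orbitRel_zpowers_iff (σ : Perm X) (x y : X) :
    (MulAction.orbitRel (Subgroup.zpowers σ) X) x y ↔ σ.SameCycle y x := by
  rw [MulAction.orbitRel_apply, MulAction.mem_orbit_iff]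
  constructor
  · rintro ⟨⟨g, hg⟩, rfl⟩
    obtain ⟨i, rfl⟩ := Subgroup.mem_zpowers_iff.mp hg
    exact ⟨i, rfl⟩
  · rintro ⟨i, rfl⟩
    exact ⟨⟨σ ^ i, Subgroup.zpow_mem_zpowers σ i⟩, rfl⟩

/-- the invariant separating the cycles. -/
noncomputable def cycleLabel (σ : Perm X) (x : X) :
    {c // c ∈ σ.cycleFactorsFinset} ⊕ {x // σ x = x} :=
  if h : σ x = x then Sum.inr ⟨x, h⟩
  else Sum.inl ⟨σ.cycleOf x, cycleOf_mem_cycleFactorsFinset_iff.mpr (mem_support.mpr h)⟩

lemma cycleLabel_eq_of_sameCycle (σ : Perm X) {x y : X} (h : σ.SameCycle x y) :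
    cycleLabel σ x = cycleLabel σ y := by
  unfold cycleLabel
  by_cases hx : σ x = x
  · have hxy : x = y := h.eq_of_left hx
    subst hxy
    rfl
  · have hy : ¬ σ y = y := fun hy => hx (h.apply_eq_self_iff.mpr hy)
    rw [dif_neg hx, dif_neg hy]
    congr 2
    exact h.cycleOf_eq

lemma sameCycle_of_cycleLabel_eq (σ : Perm X) {x y : X} (h : cycleLabel σ x = cycleLabel σ y) :
    σ.SameCycle x y := by
  unfold cycleLabel at h
  by_cases hx : σ x = x <;> by_cases hy : σ y = y
  · rw [dif_pos hx, dif_pos hy] at h
    have : x = y := congrArg Subtype.val (Sum.inr.inj h)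
    subst this
    exact SameCycle.refl _ _
  · rw [dif_pos hx, dif_neg hy] at h
    exact absurd h (by simp)
  · rw [dif_neg hx, dif_pos hy] at h
    exact absurd h (by simp)
  · rw [dif_neg hx, dif_neg hy] at h
    have : σ.cycleOf x = σ.cycleOf y := congrArg Subtype.val (Sum.inl.inj h)
    exact (sameCycle_iff_cycleOf_eq_of_mem_support (mem_support.mpr hx)
      (mem_support.mpr hy)).mpr this

lemma cycleLabel_surjective (σ : Perm X) : Function.Surjective (cycleLabel σ) := by
  rintro (⟨c, hc⟩ | ⟨x, hx⟩)
  · have hcyc : c.IsCycle := (mem_cycleFactorsFinset_iff.mp hc).1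
    obtain ⟨a, ha⟩ := hcyc.nonempty_support
    have hca : c = σ.cycleOf a := cycle_is_cycleOf ha hc
    have haσ : a ∈ σ.support := mem_cycleFactorsFinset_support_le hc ha
    refine ⟨a, ?_⟩
    unfold cycleLabel
    rw [dif_neg (mem_support.mp haσ)]
    congr 2
    exact hca.symm
  · refine ⟨x, ?_⟩
    unfold cycleLabel
    rw [dif_pos hx]

/-- `cyc σ` = number of nontrivial cycles + number of fixed points. -/
theorem cyc_eq (σ : Perm X) :
    cyc σ = Multiset.card σ.cycleType + (Fintype.card X - σ.cycleType.sum) := by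
  classical
  let Q := MulAction.orbitRel.Quotient (Subgroup.zpowers σ) X
  let F : Q → {c // c ∈ σ.cycleFactorsFinset} ⊕ {x // σ x = x} :=
    Quotient.lift (cycleLabel σ) (fun a b hab =>
      cycleLabel_eq_of_sameCycle σ ((orbitRel_zpowers_iff σ a b).mp hab).symm)
  have hF : Function.Bijective F := by
    constructor
    · intro q₁ q₂
      induction q₁ using Quotient.inductionOn with | _ a =>
      induction q₂ using Quotient.inductionOn with | _ b =>
      intro h
      apply Quotient.sound
      exact (orbitRel_zpowers_iff σ a b).mpr (sameCycle_of_cycleLabel_eq σ h).symm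
    · intro z
      obtain ⟨x, hx⟩ := cycleLabel_surjective σ z
      exact ⟨Quotient.mk'' x, hx⟩
  have h1 : cyc σ = Nat.card ({c // c ∈ σ.cycleFactorsFinset} ⊕ {x // σ x = x}) :=
    Nat.card_congr (Equiv.ofBijective F hF)
  rw [h1, Nat.card_sum, Nat.card_eq_fintype_card, Nat.card_eq_fintype_card, Fintype.card_coe]
  congr 1
  · rw [cycleType_def, Multiset.card_map]
    rfl
  · rw [sum_cycleType, ← Finset.card_compl, Fintype.card_subtype]
    congr 1
    ext x
    simp [mem_support]

theorem card_sub_cyc (σ : Perm X) :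
    Fintype.card X - cyc σ = σ.cycleType.sum - Multiset.card σ.cycleType ∧
      Multiset.card σ.cycleType ≤ σ.cycleType.sum ∧ σ.cycleType.sum ≤ Fintype.card X := by
  have h1 := cyc_eq σ
  have h2 := sum_cycleType_le σ
  have h3 : Multiset.card σ.cycleType ≤ σ.cycleType.sum := by
    have : ∀ n ∈ σ.cycleType, 1 ≤ n := fun n hn => (one_lt_of_mem_cycleType hn).le
    calc Multiset.card σ.cycleType = Multiset.card σ.cycleType • 1 := by simp
      _ ≤ σ.cycleType.sum := Multiset.card_nsmul_le_sum this
  refine ⟨by omega, h3, h2⟩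

/-- the sign of a permutation through its number of cycles. -/
theorem sign_eq_neg_one_pow (σ : Perm X) :
    Perm.sign σ = (-1) ^ (Fintype.card X - cyc σ) := by
  obtain ⟨h1, h2, h3⟩ := card_sub_cyc σ
  rw [sign_of_cycleType, h1]
  have : σ.cycleType.sum + Multiset.card σ.cycleType
      = (σ.cycleType.sum - Multiset.card σ.cycleType) + 2 * Multiset.card σ.cycleType := by omega
  rw [this, pow_add, pow_mul]
  simp

/-- parity of the three cycle counts of `s`, `t`, `s * t`. -/
theorem even_cyc_add (s t : Perm X) :
    Even (cyc s + cyc t + cyc (s * t) + Fintype.card X) := by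
  have hs := sign_eq_neg_one_pow s
  have ht := sign_eq_neg_one_pow t
  have hst := sign_eq_neg_one_pow (s * t)
  rw [Perm.sign_mul, hs, ht, ← pow_add] at hst
  have h1 := cyc_le_card s
  have h2 := cyc_le_card t
  have h3 := cyc_le_card (s * t)
  set a := Fintype.card X - cyc s + (Fintype.card X - cyc t) with ha
  set b := Fintype.card X - cyc (s * t) with hb
  have hpar : Even a ↔ Even b := by
    constructor
    · intro hae
      by_contra hbo
      rw [Nat.not_even_iff_odd] at hbo
      rw [hae.neg_one_pow, hbo.neg_one_pow] at hst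
      exact absurd hst (by decide)
    · intro hbe
      by_contra hao
      rw [Nat.not_even_iff_odd] at hao
      rw [hbe.neg_one_pow, hao.neg_one_pow] at hst
      exact absurd hst (by decide)
  have hab : Even (a + b) := by
    rcases Nat.even_or_odd a with hae | hao
    · exact hae.add (hpar.mp hae)
    · have hbo : Odd b := by
        rw [← Nat.not_even_iff_odd] at hao ⊢
        exact fun hb' => hao (hpar.mpr hb')
      exact hao.add_odd hbo
  have : cyc s + cyc t + cyc (s * t) + Fintype.card X + (a + b) = 4 * Fintype.card X := by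
    omega
  have h4 : Even (4 * Fintype.card X) := ⟨2 * Fintype.card X, by ring⟩
  rw [← this] at h4
  exact (Nat.even_add.mp h4).mpr hab

end Fermat.Agent.S24_helper44
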