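import Fermat.Agent.S24_helper44.PermModule

/-!
Scott / Ree inequality for a transitive pair of permutations:
`cyc s + cyc t + cyc (s * t) ≤ card X + 2`.
-/

set_option autoImplicit false

namespace Fermat.Agent.S24_helper44

open Module LinearMap MulAction

variable {X : Type*} [Fintype X] [DecidableEq X] {k : Type*} [Field k]

/-- permutations `g` with `e_{g x} - e_x ∈ W` for all `x`. -/
def moveSub (W : Submodule k (X → k)) : Subgroup (Equiv.Perm X) where
  carrier := {g | ∀ x, Pi.single (g x) (1 : k) - Pi.single x 1 ∈ W}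
  mul_mem' := fun {a b} ha hb x => by
    have h1 := ha (b x)
    have h2 := hb x
    have : (Pi.single ((a * b) x) (1 : k) : X → k) - Pi.single x 1
        = ((Pi.single (a (b x)) 1 : X → k) - Pi.single (b x) 1)
          + ((Pi.single (b x) 1 : X → k) - Pi.single x 1) := by
      rw [Equiv.Perm.mul_apply]; abel
    rw [this]
    exact W.add_mem h1 h2
  one_mem' := fun x => by simp
  inv_mem' := fun {g} hg x => by
    have h := W.neg_mem (hg (g⁻¹ x))
    simpa using h

omit [Fintype X] in
lemma single_sub_single_mem_range (s : Equiv.Perm X) (x : X) :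
    Pi.single (s x) (1 : k) - Pi.single x 1 ∈ range (1 - permMap k s) := by
  refine ⟨Pi.single (s x) 1, ?_⟩
  funext z
  simp only [LinearMap.sub_apply, Module.End.one_apply, Pi.sub_apply, permMap_apply,
    Pi.single_apply, s.injective.eq_iff]

omit [Fintype X] in
lemma mem_moveSub_of_range_le (s : Equiv.Perm X) (W : Submodule k (X → k))
    (h : range (1 - permMap k s) ≤ W) : s ∈ moveSub W :=
  fun x => h (single_sub_single_mem_range s x)

/-- `dim (im(1-S) + im(1-T)) ≥ n - 1` for a transitive pair. -/
theorem card_le_finrank_sup_add_one (s t : Equiv.Perm X)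
    (htrans : ∀ x y : X, ∃ g ∈ Subgroup.closure {s, t}, g x = y) :
    Fintype.card X ≤
      finrank k ↥(range (1 - permMap k t) ⊔ range (1 - permMap k s)) + 1 := by
  rcases isEmpty_or_nonempty X with hX | ⟨⟨x₀⟩⟩
  · simp [Fintype.card_eq_zero]
  set W := range (1 - permMap k t) ⊔ range (1 - permMap k s) with hW
  have hcl : Subgroup.closure {s, t} ≤ moveSub W := by
    rw [Subgroup.closure_le]
    rintro g (rfl | rfl)
    · exact mem_moveSub_of_range_le _ W le_sup_right
    · exact mem_moveSub_of_range_le _ W le_sup_left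
  have hx : ∀ x, Pi.single x (1 : k) - Pi.single x₀ 1 ∈ W := by
    intro x
    obtain ⟨g, hg, rfl⟩ := htrans x₀ x
    exact hcl hg x₀
  have htop : (⊤ : Submodule k (X → k))
      ≤ W ⊔ Submodule.span k {(Pi.single x₀ (1 : k) : X → k)} := by
    intro f _
    rw [← Finset.univ_sum_single f]
    refine Submodule.sum_mem _ fun x _ => ?_
    have : Pi.single x (f x) = f x • (Pi.single x (1 : k) - Pi.single x₀ 1)
        + f x • Pi.single x₀ (1 : k) := by
      funext z
      simp only [Pi.single_apply, Pi.add_apply, Pi.smul_apply, Pi.sub_apply, smul_eq_mul]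
      split_ifs <;> ring
    rw [this]
    exact Submodule.add_mem _
      (Submodule.mem_sup_left (W.smul_mem _ (hx x)))
      (Submodule.mem_sup_right (Submodule.smul_mem _ _ (Submodule.mem_span_singleton_self _)))
  have h1 : finrank k (X → k)
      ≤ finrank k ↥(W ⊔ Submodule.span k {(Pi.single x₀ (1 : k) : X → k)}) := by
    rw [← finrank_top k (X → k)]
    exact Submodule.finrank_mono htop
  have h2 := Submodule.finrank_add_le_finrank_add_finrank W
    (Submodule.span k {(Pi.single x₀ (1 : k) : X → k)})
  have h3 : finrank k ↥(Submodule.span k {(Pi.single x₀ (1 : k) : X → k)}) ≤ 1 :=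
    (finrank_span_le_card _).trans (by simp)
  rw [Module.finrank_fintype_fun_eq_card] at h1
  omega

omit [DecidableEq X] in
/-- invariants of a transitive pair are the constants: dimension at most one. -/
theorem finrank_inf_ker_le_one (s t : Equiv.Perm X)
    (htrans : ∀ x y : X, ∃ g ∈ Subgroup.closure {s, t}, g x = y) :
    finrank k ↥(ker (1 - permMap k t) ⊓ ker (1 - permMap k s)) ≤ 1 := by
  rcases isEmpty_or_nonempty X with hX | ⟨⟨x₀⟩⟩
  · have : finrank k (X → k) = 0 := by
      rw [Module.finrank_fintype_fun_eq_card]; simp [Fintype.card_eq_zero]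
    have h := Submodule.finrank_le (ker (1 - permMap k t) ⊓ ker (1 - permMap k s))
    omega
  have hle : ker (1 - permMap k t) ⊓ ker (1 - permMap k s)
      ≤ Submodule.span k {(fun _ => 1 : X → k)} := by
    rintro f ⟨hft, hfs⟩
    have hft' := (mem_ker_one_sub_permMap t f).mp hft
    have hfs' := (mem_ker_one_sub_permMap s f).mp hfs
    have hcl : Subgroup.closure {s, t} ≤ stabFun f := by
      rw [Subgroup.closure_le]
      rintro g (rfl | rfl)
      · exact hfs'
      · exact hft'
    rw [Submodule.mem_span_singleton]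
    refine ⟨f x₀, ?_⟩
    funext x
    obtain ⟨g, hg, rfl⟩ := htrans x₀ x
    simp only [Pi.smul_apply, smul_eq_mul, mul_one]
    exact (hcl hg x₀).symm
  exact (Submodule.finrank_mono hle).trans ((finrank_span_le_card _).trans (by simp))

/-- **Scott / Ree inequality.** -/
theorem cyc_add_cyc_add_cyc_le (s t : Equiv.Perm X)
    (htrans : ∀ x y : X, ∃ g ∈ Subgroup.closure {s, t}, g x = y) :
    cyc s + cyc t + cyc (s * t) ≤ Fintype.card X + 2 := by
  have hS := scott_linear (k := ℚ) (permMap ℚ t) (permMap ℚ s)
  rw [← permMap_mul] at hS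
  have h1 := finrank_range_one_sub_permMap (k := ℚ) s
  have h2 := finrank_range_one_sub_permMap (k := ℚ) t
  have h3 := finrank_range_one_sub_permMap (k := ℚ) (s * t)
  have h4 := card_le_finrank_sup_add_one (k := ℚ) s t htrans
  have h5 := finrank_inf_ker_le_one (k := ℚ) s t htrans
  rw [Module.finrank_fintype_fun_eq_card] at hS
  omega

end Fermat.Agent.S24_helper44
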