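import Fermat.Agent.S24_helper44.PermTriple

/-!
The permutation-triple statements for `SL(2,ℤ)` acting on `SL(2,ℤ) ⧸ Γ₀(N)` with the standard
generators `S`, `T` (so `S * T` is the elliptic element of order three in `PSL(2,ℤ)`).
-/

set_option autoImplicit false

namespace Fermat.Agent.S24_helper44

open MulAction Matrix ModularGroup CongruenceSubgroup ModularCurve
open scoped MatrixGroups

variable (N : ℕ)

/-- the coset space `SL(2,ℤ) ⧸ Γ₀(N)` with the left multiplication action. -/
abbrev CosetSpace : Type := SL(2, ℤ) ⧸ Gamma0 N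

lemma neg_one_mem_Gamma0 : (-1 : SL(2, ℤ)) ∈ Gamma0 N := by
  rw [Gamma0_mem]
  simp

lemma neg_one_smul_coset (x : CosetSpace N) : (-1 : SL(2, ℤ)) • x = x := by
  induction x using QuotientGroup.induction_on with | _ g =>
  rw [MulAction.Quotient.smul_mk, QuotientGroup.eq]
  have : ((-1 : SL(2, ℤ)) • g)⁻¹ * g = -1 := by
    rw [smul_eq_mul, _root_.mul_inv_rev, mul_assoc]
    have h1 : (-1 : SL(2, ℤ))⁻¹ = -1 := by decide
    rw [h1, neg_mul, one_mul, mul_neg, inv_mul_cancel]
  rw [this]
  exact neg_one_mem_Gamma0 N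

lemma S_mul_S : (S * S : SL(2, ℤ)) = -1 := by decide

lemma ST_cube : ((S * T) * (S * T) * (S * T) : SL(2, ℤ)) = -1 := by decide

lemma S_smul_S_smul (x : CosetSpace N) : (S : SL(2, ℤ)) • (S : SL(2, ℤ)) • x = x := by
  rw [smul_smul, S_mul_S, neg_one_smul_coset]

lemma ST_smul_cube (x : CosetSpace N) :
    (S * T : SL(2, ℤ)) • (S * T : SL(2, ℤ)) • (S * T : SL(2, ℤ)) • x = x := by
  rw [smul_smul, smul_smul, ST_cube, neg_one_smul_coset]

variable [NeZero N]

theorem finite_cosetSpace : Finite (CosetSpace N) := Subgroup.finite_quotient_of_finiteIndex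

/-- parity for the modular triple. -/
theorem even_modular_triple :
    Even (cycG (X := CosetSpace N) S + cycG (X := CosetSpace N) T
      + cycG (X := CosetSpace N) (S * T) + Nat.card (CosetSpace N)) :=
  haveI := finite_cosetSpace N
  even_cycG_add (X := CosetSpace N) S T

/-- Scott / Ree for the modular triple. -/
theorem modular_triple_le :
    cycG (X := CosetSpace N) S + cycG (X := CosetSpace N) T
      + cycG (X := CosetSpace N) (S * T) ≤ Nat.card (CosetSpace N) + 2 :=
  haveI := finite_cosetSpace N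
  cycG_add_le (X := CosetSpace N) S T SpecialLinearGroup.SL2Z_generators

theorem two_mul_cycG_S :
    2 * cycG (X := CosetSpace N) S
      = Nat.card (CosetSpace N) + Nat.card (MulAction.fixedBy (CosetSpace N) S) :=
  haveI := finite_cosetSpace N
  two_mul_cycG (X := CosetSpace N) S (S_smul_S_smul N)

theorem three_mul_cycG_ST :
    3 * cycG (X := CosetSpace N) (S * T)
      = Nat.card (CosetSpace N) + 2 * Nat.card (MulAction.fixedBy (CosetSpace N) (S * T)) :=
  haveI := finite_cosetSpace N
  three_mul_cycG (X := CosetSpace N) (S * T) (ST_smul_cube N)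

/-- **The genus formula is a natural number** once the four classical counts on
`SL(2,ℤ) ⧸ Γ₀(N)` are known; moreover `2g - 2 = n - r₀ - r₁₇₂₈ - r_∞`. -/
theorem exists_nat_eq_genusFormula_of_counts
    (hn : Nat.card (CosetSpace N) = dedekindPsi N)
    (h2 : Nat.card (MulAction.fixedBy (CosetSpace N) S) = nuTwo N)
    (h3 : Nat.card (MulAction.fixedBy (CosetSpace N) (S * T)) = nuThree N)
    (hc : cycG (X := CosetSpace N) T = cuspCount N) :
    ∃ g : ℕ, (g : ℚ) = genusFormula N ∧
      (Nat.card (CosetSpace N) : ℤ) - cycG (X := CosetSpace N) (S * T)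
        - cycG (X := CosetSpace N) S - cycG (X := CosetSpace N) T = 2 * (g : ℤ) - 2 :=
  haveI := finite_cosetSpace N
  exists_nat_eq_genusFormula (X := CosetSpace N) N S T SpecialLinearGroup.SL2Z_generators
    (S_smul_S_smul N) (ST_smul_cube N) hn h2 h3 hc

end Fermat.Agent.S24_helper44
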