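import Fermat.Agent.S24_helper44.ScottLinear

/-!
The permutation module `X → k` of a finite set: invariants of a permutation have dimension the
number of cycles; consequences of Scott's lemma for a transitive pair of permutations.
-/

set_option autoImplicit false

namespace Fermat.Agent.S24_helper44

open Module LinearMap MulAction

/-- number of cycles of a permutation (orbits of the cyclic group it generates, fixed points
included). -/
noncomputable def cyc {X : Type*} (s : Equiv.Perm X) : ℕ :=
  Nat.card (MulAction.orbitRel.Quotient (Subgroup.zpowers s) X)

section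

variable {X : Type*} (k : Type*) [Field k]

/-- `f ↦ f ∘ s` on the permutation module. -/
noncomputable def permMap (s : Equiv.Perm X) : (X → k) →ₗ[k] (X → k) := LinearMap.funLeft k k s

variable {k}

@[simp] lemma permMap_apply (s : Equiv.Perm X) (f : X → k) (x : X) :
    permMap k s f x = f (s x) := rfl

lemma permMap_mul (s t : Equiv.Perm X) : permMap k (s * t) = permMap k t * permMap k s := by
  ext f x
  rfl

lemma mem_ker_one_sub_permMap (s : Equiv.Perm X) (f : X → k) :
    f ∈ ker (1 - permMap k s) ↔ ∀ x, f (s x) = f x := by
  rw [LinearMap.mem_ker, LinearMap.sub_apply, Module.End.one_apply, sub_eq_zero]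
  constructor
  · intro h x
    exact (congrFun h x).symm
  · intro h
    funext x
    exact (h x).symm

end

section

variable {X α : Type*}

/-- the permutations leaving a function invariant. -/
def stabFun (f : X → α) : Subgroup (Equiv.Perm X) where
  carrier := {g | ∀ x, f (g x) = f x}
  mul_mem' := fun {a b} ha hb x => by rw [Equiv.Perm.mul_apply, ha, hb]
  one_mem' := fun x => rfl
  inv_mem' := fun {g} hg x => by
    have := hg (g⁻¹ x)
    simpa using this.symm

lemma mem_stabFun (f : X → α) (g : Equiv.Perm X) : g ∈ stabFun f ↔ ∀ x, f (g x) = f x := Iff.rfl

end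

section finite

variable {X : Type*} [Fintype X] {k : Type*} [Field k]

lemma cyc_le_card (s : Equiv.Perm X) : cyc s ≤ Fintype.card X := by
  unfold cyc
  rw [← Nat.card_eq_fintype_card]
  exact Nat.card_le_card_of_surjective _ Quotient.mk''_surjective

/-- invariant functions = functions on the orbit space. -/
theorem finrank_ker_one_sub_permMap (s : Equiv.Perm X) :
    finrank k (ker (1 - permMap k s)) = cyc s := by
  classical
  let Q := MulAction.orbitRel.Quotient (Subgroup.zpowers s) X
  let π : X → Q := Quotient.mk''
  have hπ : Function.Surjective π := Quotient.mk''_surjective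
  let Φ : (Q → k) →ₗ[k] (X → k) := LinearMap.funLeft k k π
  have hΦ : Function.Injective Φ := LinearMap.funLeft_injective_of_surjective k k π hπ
  have hrange : range Φ = ker (1 - permMap k s) := by
    ext f
    rw [mem_ker_one_sub_permMap]
    constructor
    · rintro ⟨φ, rfl⟩ x
      show φ (π (s x)) = φ (π x)
      congr 1
      apply Quotient.sound
      show s x ∈ MulAction.orbit (Subgroup.zpowers s) x
      exact ⟨⟨s, Subgroup.mem_zpowers s⟩, rfl⟩
    · intro hf
      have hle : Subgroup.zpowers s ≤ stabFun f := by
        rw [Subgroup.zpowers_le]
        exact hf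
      refine ⟨Quotient.lift f ?_, ?_⟩
      · intro a b hab
        obtain ⟨g, rfl⟩ := hab
        exact hle g.2 b
      · funext x
        rfl
  have : Fintype Q := Fintype.ofFinite Q
  rw [← hrange, LinearMap.finrank_range_of_inj hΦ, Module.finrank_fintype_fun_eq_card, cyc,
    Nat.card_eq_fintype_card]

theorem finrank_range_one_sub_permMap (s : Equiv.Perm X) :
    finrank k (range (1 - permMap k s)) + cyc s = Fintype.card X := by
  have h := LinearMap.finrank_range_add_finrank_ker (1 - permMap k s)
  rw [finrank_ker_one_sub_permMap, Module.finrank_fintype_fun_eq_card] at h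
  exact h

end finite

end Fermat.Agent.S24_helper44
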