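import Fermat.Agent.S24_helper44.CycleCount
import Fermat.Agent.S24_helper44.ScottPerm
import Fermat.Prelude.Def_ModularCurve_GenusNumerics

/-!
Permutation triples `(s, t, s * t)`: elements of prime order, the group-action versions of the
parity and Scott/Ree statements, and the arithmetic corollary: the classical genus formula is a
natural number as soon as the four counts (index, fixed points of the two elliptic generators,
number of cusps) are the ones of a transitive action.
-/

set_option autoImplicit false

namespace Fermat.Agent.S24_helper44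

open MulAction Equiv Equiv.Perm

section prime

variable {X : Type*} [Fintype X] [DecidableEq X]

lemma card_fixed_eq (σ : Perm X) :
    Fintype.card {x // σ x = x} = Fintype.card X - σ.cycleType.sum := by
  rw [sum_cycleType, ← Finset.card_compl, Fintype.card_subtype]
  congr 1
  ext x
  simp [mem_support]

/-- cycles of a permutation of prime order `p`: `p * cyc σ = n + (p - 1) * #Fix σ`. -/
theorem prime_mul_cyc (σ : Perm X) {p : ℕ} (hp : p.Prime) (hσ : σ ^ p = 1) :
    p * cyc σ = Fintype.card X + (p - 1) * Fintype.card {x // σ x = x} := by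
  have hall : ∀ m ∈ σ.cycleType, m = p := by
    intro m hm
    have h1 : m ∣ p := (dvd_of_mem_cycleType hm).trans (orderOf_dvd_of_pow_eq_one hσ)
    rcases (Nat.dvd_prime hp).mp h1 with h | h
    · have := one_lt_of_mem_cycleType hm
      omega
    · exact h
  have hsum : σ.cycleType.sum = Multiset.card σ.cycleType * p := by
    rw [Multiset.eq_replicate_card.mpr hall, Multiset.sum_replicate, Multiset.card_replicate,
      smul_eq_mul]
  have h1 := cyc_eq σ
  have h2 := card_fixed_eq σ
  have h3 := sum_cycleType_le σ
  rw [h1, h2, hsum] at *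
  have hp1 : 1 ≤ p := hp.one_lt.le
  obtain ⟨q, rfl⟩ : ∃ q, p = q + 1 := ⟨p - 1, by omega⟩
  simp only [add_tsub_cancel_right]
  set c := Multiset.card σ.cycleType
  set n := Fintype.card X
  obtain ⟨r, hr⟩ : ∃ r, n = c * (q + 1) + r := ⟨n - c * (q + 1), by omega⟩
  rw [hr]
  simp only [add_tsub_cancel_left]
  ring

theorem two_mul_cyc (σ : Perm X) (hσ : σ ^ 2 = 1) :
    2 * cyc σ = Fintype.card X + Fintype.card {x // σ x = x} := by
  have := prime_mul_cyc σ Nat.prime_two hσ
  simpa using this

theorem three_mul_cyc (σ : Perm X) (hσ : σ ^ 3 = 1) :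
    3 * cyc σ = Fintype.card X + 2 * Fintype.card {x // σ x = x} := by
  have := prime_mul_cyc σ Nat.prime_three hσ
  simpa using this

end prime

section action

variable {G X : Type*} [Group G] [MulAction G X]

/-- number of orbits of the cyclic group generated by `g`. -/
noncomputable def cycG (g : G) : ℕ :=
  Nat.card (MulAction.orbitRel.Quotient (Subgroup.zpowers g) X)

variable (X) in
lemma cycG_eq_cyc (g : G) : cycG (X := X) g = cyc (MulAction.toPerm g : Perm X) := by
  unfold cycG cyc
  apply Nat.card_congr
  apply Quotient.congrRight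
  intro x y
  rw [MulAction.orbitRel_apply, MulAction.orbitRel_apply, MulAction.mem_orbit_iff,
    MulAction.mem_orbit_iff]
  constructor
  · rintro ⟨⟨h, hh⟩, rfl⟩
    obtain ⟨i, rfl⟩ := Subgroup.mem_zpowers_iff.mp hh
    refine ⟨⟨(MulAction.toPerm g : Perm X) ^ i, Subgroup.zpow_mem_zpowers _ i⟩, ?_⟩
    change ((MulAction.toPerm g : Perm X) ^ i) y = (g ^ i) • y
    rw [← MulAction.toPermHom_apply, ← map_zpow]
    rfl
  · rintro ⟨⟨h, hh⟩, rfl⟩
    obtain ⟨i, rfl⟩ := Subgroup.mem_zpowers_iff.mp hh
    refine ⟨⟨g ^ i, Subgroup.zpow_mem_zpowers _ i⟩, ?_⟩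
    change (g ^ i) • y = ((MulAction.toPerm g : Perm X) ^ i) y
    rw [← MulAction.toPermHom_apply, ← map_zpow]
    rfl

variable [Finite X]

/-- parity, group-action version. -/
theorem even_cycG_add (a b : G) :
    Even (cycG (X := X) a + cycG (X := X) b + cycG (X := X) (a * b) + Nat.card X) := by
  classical
  have : Fintype X := Fintype.ofFinite X
  rw [cycG_eq_cyc, cycG_eq_cyc, cycG_eq_cyc, Nat.card_eq_fintype_card]
  have h := even_cyc_add (MulAction.toPerm a : Perm X) (MulAction.toPerm b)
  have hm : (MulAction.toPerm (a * b) : Perm X) = MulAction.toPerm a * MulAction.toPerm b :=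
    map_mul (MulAction.toPermHom G X) a b
  rw [hm]
  exact h

/-- Scott / Ree, group-action version. -/
theorem cycG_add_le [MulAction.IsPretransitive G X] (a b : G)
    (hgen : Subgroup.closure {a, b} = ⊤) :
    cycG (X := X) a + cycG (X := X) b + cycG (X := X) (a * b) ≤ Nat.card X + 2 := by
  classical
  have : Fintype X := Fintype.ofFinite X
  rw [cycG_eq_cyc, cycG_eq_cyc, cycG_eq_cyc, Nat.card_eq_fintype_card]
  have hm : (MulAction.toPerm (a * b) : Perm X) = MulAction.toPerm a * MulAction.toPerm b :=
    map_mul (MulAction.toPermHom G X) a b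
  rw [hm]
  apply cyc_add_cyc_add_cyc_le
  intro x y
  obtain ⟨g, rfl⟩ := MulAction.exists_smul_eq G x y
  refine ⟨MulAction.toPermHom G X g, ?_, rfl⟩
  have hg : g ∈ Subgroup.closure {a, b} := by rw [hgen]; trivial
  have := Subgroup.mem_map_of_mem (MulAction.toPermHom G X) hg
  rw [MonoidHom.map_closure, Set.image_pair] at this
  exact this

/-- elements acting as involutions. -/
theorem two_mul_cycG (a : G) (ha : ∀ x : X, a • a • x = x) :
    2 * cycG (X := X) a = Nat.card X + Nat.card (MulAction.fixedBy X a) := by
  classical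
  have : Fintype X := Fintype.ofFinite X
  rw [cycG_eq_cyc, Nat.card_eq_fintype_card]
  have h := two_mul_cyc (MulAction.toPerm a : Perm X) (by
    ext x
    simp only [pow_two, Perm.mul_apply, MulAction.toPerm_apply, Perm.one_apply]
    exact ha x)
  rw [h]
  congr 1
  rw [← Nat.card_eq_fintype_card]
  rfl

/-- elements acting with order dividing three. -/
theorem three_mul_cycG (a : G) (ha : ∀ x : X, a • a • a • x = x) :
    3 * cycG (X := X) a = Nat.card X + 2 * Nat.card (MulAction.fixedBy X a) := by
  classical
  have : Fintype X := Fintype.ofFinite X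
  rw [cycG_eq_cyc, Nat.card_eq_fintype_card]
  have h := three_mul_cyc (MulAction.toPerm a : Perm X) (by
    ext x
    simp only [pow_succ, pow_zero, one_mul, Perm.mul_apply, MulAction.toPerm_apply,
      Perm.one_apply]
    exact ha x)
  rw [h]
  congr 2
  rw [← Nat.card_eq_fintype_card]
  rfl

end action

section genus

open ModularCurve

variable {G X : Type*} [Group G] [MulAction G X] [Finite X] [MulAction.IsPretransitive G X]

/-- **The genus formula is a natural number**, and equals the Riemann–Hurwitz count
`2g - 2 = n - r₀ - r₁₇₂₈ - r_∞`, for any transitive action of a group generated by `a`, `b`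
(`a` acting as an involution, `a * b` with order dividing three) whose four counts are the
classical ones. -/
theorem exists_nat_eq_genusFormula (N : ℕ) (a b : G) (hgen : Subgroup.closure {a, b} = ⊤)
    (ha : ∀ x : X, a • a • x = x) (hab : ∀ x : X, (a * b) • (a * b) • (a * b) • x = x)
    (hn : Nat.card X = dedekindPsi N)
    (h2 : Nat.card (MulAction.fixedBy X a) = nuTwo N)
    (h3 : Nat.card (MulAction.fixedBy X (a * b)) = nuThree N)
    (hc : cycG (X := X) b = cuspCount N) :
    ∃ g : ℕ, (g : ℚ) = genusFormula N ∧
      (Nat.card X : ℤ) - cycG (X := X) (a * b) - cycG (X := X) a - cycG (X := X) b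
        = 2 * (g : ℤ) - 2 := by
  have hpar := even_cycG_add (X := X) a b
  have hle := cycG_add_le (X := X) a b hgen
  have e2 := two_mul_cycG (X := X) a ha
  have e3 := three_mul_cycG (X := X) (a * b) hab
  obtain ⟨m, hm⟩ := hpar
  have hm' : Nat.card X + 2 - (cycG (X := X) a + cycG (X := X) b + cycG (X := X) (a * b))
      = 2 * (Nat.card X + 1 - m) := by omega
  refine ⟨Nat.card X + 1 - m, ?_, ?_⟩
  · have hmle : m ≤ Nat.card X + 1 := by omega
    rw [Nat.cast_sub hmle]
    unfold genusFormula
    rw [← hn, ← h2, ← h3, ← hc]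
    have e2' : (2 : ℚ) * cycG (X := X) a = Nat.card X + Nat.card (MulAction.fixedBy X a) := by
      exact_mod_cast e2
    have e3' : (3 : ℚ) * cycG (X := X) (a * b)
        = Nat.card X + 2 * Nat.card (MulAction.fixedBy X (a * b)) := by
      exact_mod_cast e3
    have hm'' : ((cycG (X := X) a : ℚ) + cycG (X := X) b + cycG (X := X) (a * b) + Nat.card X)
        = m + m := by exact_mod_cast hm
    push_cast
    linarith
  · have hmle : m ≤ Nat.card X + 1 := by omega
    push_cast [Nat.cast_sub hmle]
    have hm'' : ((cycG (X := X) a : ℤ) + cycG (X := X) b + cycG (X := X) (a * b) + Nat.card X)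
        = m + m := by exact_mod_cast hm
    linarith

end genus

end Fermat.Agent.S24_helper44
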