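import Mathlib

/-!
Scott's lemma (three-term version), pure linear algebra: for endomorphisms `S`, `T` of a
finite-dimensional space,
`dim V + dim (im(1-S) + im(1-T)) ≤ rk(1-S) + rk(1-T) + rk(1-ST) + dim (ker(1-S) ∩ ker(1-T))`.
-/

set_option autoImplicit false

namespace Fermat.Agent.S24_helper44

open Module LinearMap

variable {k V : Type*} [Field k] [AddCommGroup V] [Module k V] [FiniteDimensional k V]

/-- the key estimate: `dim ker(1 - ST) ≤ dim (ker(1-S) ∩ ker(1-T)) + dim (im(1-S) ∩ im(1-T))`. -/
theorem finrank_ker_one_sub_mul_le (S T : V →ₗ[k] V) :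
    finrank k (ker (1 - S * T)) ≤
      finrank k ↥(ker (1 - S) ⊓ ker (1 - T)) + finrank k ↥(range (1 - S) ⊓ range (1 - T)) := by
  set θ : ker (1 - S * T) →ₗ[k] V := (1 - T).domRestrict (ker (1 - S * T)) with hθ
  have h1 := LinearMap.finrank_range_add_finrank_ker θ
  -- range θ ≤ range (1 - S) ⊓ range (1 - T)
  have h2 : range θ ≤ range (1 - S) ⊓ range (1 - T) := by
    rintro _ ⟨⟨v, hv⟩, rfl⟩
    have hv' : v = S (T v) := by
      have : (1 - S * T) v = 0 := hv
      simpa [sub_eq_zero] using this
    refine ⟨⟨-(T v), ?_⟩, ⟨v, rfl⟩⟩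
    simp only [hθ, LinearMap.domRestrict_apply, LinearMap.sub_apply, Module.End.one_apply,
      map_neg]
    rw [neg_sub, ← hv']
  -- ker θ embeds into ker (1 - S) ⊓ ker (1 - T)
  have h3 : finrank k (ker θ) ≤ finrank k ↥(ker (1 - S) ⊓ ker (1 - T)) := by
    let ι : ker θ →ₗ[k] ↥(ker (1 - S) ⊓ ker (1 - T)) :=
      { toFun := fun w => ⟨w.1.1, by
          have hT : (1 - T) w.1.1 = 0 := by
            have hw := w.2
            rw [LinearMap.mem_ker] at hw
            exact hw
          have hST : (1 - S * T) w.1.1 = 0 := w.1.2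
          refine ⟨?_, hT⟩
          have hT' : T w.1.1 = w.1.1 := by
            have := hT
            simp only [LinearMap.sub_apply, Module.End.one_apply, sub_eq_zero] at this
            exact this.symm
          show (1 - S) w.1.1 = 0
          simp only [LinearMap.sub_apply, Module.End.one_apply,
            Module.End.mul_apply, hT'] at hST ⊢
          exact hST⟩
        map_add' := fun a b => rfl
        map_smul' := fun c a => rfl }
    have hι : Function.Injective ι := by
      intro a b hab
      have : a.1.1 = b.1.1 :=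
        congrArg (fun z : ↥(ker (1 - S) ⊓ ker (1 - T)) => (z : V)) hab
      exact Subtype.ext (Subtype.ext this)
    exact LinearMap.finrank_le_finrank_of_injective hι
  have h4 : finrank k (range θ) ≤ finrank k ↥(range (1 - S) ⊓ range (1 - T)) :=
    Submodule.finrank_mono h2
  omega

/-- **Scott's lemma**, three-term version. -/
theorem scott_linear (S T : V →ₗ[k] V) :
    finrank k V + finrank k ↥(range (1 - S) ⊔ range (1 - T)) ≤
      finrank k (range (1 - S)) + finrank k (range (1 - T)) + finrank k (range (1 - S * T))
        + finrank k ↥(ker (1 - S) ⊓ ker (1 - T)) := by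
  have h1 := Submodule.finrank_sup_add_finrank_inf_eq (range (1 - S)) (range (1 - T))
  have h2 := LinearMap.finrank_range_add_finrank_ker (1 - S * T)
  have h3 := finrank_ker_one_sub_mul_le S T
  omega

end Fermat.Agent.S24_helper44
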